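import Fermat.Agent.Periods.CuspidalBasis
import Fermat.Agent.Periods.Integral
import Fermat.Agent.Periods.HeckeComm

/-!
# The Hecke algebra of cusp forms acting on integral cuspidal cohomology
-/

set_option autoImplicit false

noncomputable section

open CongruenceSubgroup ModularCurve ModularCurve.Period
open Fermat.Agent.Periods
open scoped MatrixGroups IsMulCommutative

namespace Fermat.Agent.LevelRaise

variable (M : ℕ) [NeZero M]

local notation "Vℤ" => cuspidalHoms ℤ (Gamma0 M) ℤ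

theorem free_finite_cuspidalHoms_int : Module.Free ℤ Vℤ ∧ Module.Finite ℤ Vℤ := by
  obtain ⟨γ, e, he, hdual, hexp⟩ := exists_cuspidalBasis.{0} M
  let E : Vℤ ≃ₗ[ℤ] (Fin (2 * Module.finrank ℂ (CuspForm (Gamma0 M) 2)) → ℤ) :=
    { toFun := fun φ i => (φ : Additive (Gamma0 M) →+ ℤ) (Additive.ofMul (γ i))
      map_add' := fun _ _ => rfl
      map_smul' := fun _ _ => rfl
      invFun := fun c => ∑ i, c i • (⟨e i, he i⟩ : Vℤ)
      left_inv := fun φ => by
        refine Subtype.ext (AddMonoidHom.ext fun g => ?_)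
        rw [Submodule.coe_sum, AddMonoidHom.finsetSum_apply, hexp ℤ φ.1 φ.2 g]
        exact Finset.sum_congr rfl fun i _ => by simp [mul_comm]
      right_inv := fun c => funext fun j => by
        show ((∑ i, c i • (⟨e i, he i⟩ : Vℤ) : Vℤ) : Additive (Gamma0 M) →+ ℤ)
          (Additive.ofMul (γ j)) = c j
        rw [Submodule.coe_sum, AddMonoidHom.finsetSum_apply]
        simp [hdual] }
  exact ⟨Module.Free.of_equiv E.symm, Module.Finite.equiv E.symm⟩

/-- A Hecke operator on the integral cuspidal homomorphisms. -/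
def heckeOp {ℓ : ℕ} (hℓ : ℓ.Prime) : Module.End ℤ Vℤ :=
  (heckeHom ℤ ℤ hℓ).restrict fun _ hφ => heckeHom_mem_cuspidalHoms hℓ hφ

theorem coe_heckeOp {ℓ : ℕ} (hℓ : ℓ.Prime) (v : Vℤ) :
    (heckeOp M hℓ v : Additive (Gamma0 M) →+ ℤ) = heckeHom ℤ ℤ hℓ v := rfl

/-- The ring generated by all Hecke operators on the integral cuspidal homomorphisms. -/
def opAlg : Subalgebra ℤ (Module.End ℤ Vℤ) :=
  Algebra.adjoin ℤ (Set.range fun ℓ : Nat.Primes => heckeOp M ℓ.2)

theorem heckeOp_mem {ℓ : ℕ} (hℓ : ℓ.Prime) : heckeOp M hℓ ∈ opAlg M :=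
  Algebra.subset_adjoin ⟨⟨ℓ, hℓ⟩, rfl⟩

instance opAlg.instIsMulCommutative : IsMulCommutative (opAlg M) :=
  Algebra.isMulCommutative_adjoin ℤ fun _ hS _ hT => by
    obtain ⟨ℓ, rfl⟩ := hS
    obtain ⟨q, rfl⟩ := hT
    refine LinearMap.ext fun v => Subtype.ext ?_
    rw [Module.End.mul_apply, Module.End.mul_apply, coe_heckeOp, coe_heckeOp, coe_heckeOp,
      coe_heckeOp]
    exact heckeHom_comm (R := ℤ) ℓ.2 q.2 _

theorem moduleFinite_opAlg : Module.Finite ℤ (opAlg M) := by
  obtain ⟨h₁, h₂⟩ := free_finite_cuspidalHoms_int M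
  exact Module.Finite.of_injective (opAlg M).val.toLinearMap Subtype.val_injective

/-- `τ` is the shadow of the endomorphism `t` of cusp forms on integral cohomology. -/
def Shadow (t : Module.End ℂ (CuspForm (Gamma0 M) 2)) (τ : Module.End ℤ Vℤ) : Prop :=
  ∀ (x : CuspForm (Gamma0 M) 2 × CuspForm (Gamma0 M) 2) (v : Vℤ),
    periodHomPair M x = (Int.castAddHom ℂ).comp (v : Additive (Gamma0 M) →+ ℤ) →
      periodHomPair M (t x.1, t x.2) =
        (Int.castAddHom ℂ).comp (τ v : Additive (Gamma0 M) →+ ℤ)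

variable {M}

theorem exists_periods (v : Vℤ) : ∃ x,
    periodHomPair M x = (Int.castAddHom ℂ).comp (v : Additive (Gamma0 M) →+ ℤ) := by
  have h := intCast_comp_mem_parabolicHoms M (cuspidalHoms_le_parabolicHoms v.2)
  rwa [← range_periodHomPair M] at h

theorem Shadow.unique {t : Module.End ℂ (CuspForm (Gamma0 M) 2)} {τ τ' : Module.End ℤ Vℤ}
    (h : Shadow M t τ) (h' : Shadow M t τ') : τ = τ' := by
  refine LinearMap.ext fun v => Subtype.ext (AddMonoidHom.ext fun g => ?_)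
  obtain ⟨x, hx⟩ := exists_periods v
  exact Int.cast_injective (α := ℂ) (DFunLike.congr_fun ((h x v hx).symm.trans (h' x v hx)) g)

theorem intCast_comp_heckeOp {ℓ : ℕ} (hℓ : ℓ.Prime) (v : Vℤ) :
    heckeHom ℂ ℂ hℓ ((Int.castAddHom ℂ).comp (v : Additive (Gamma0 M) →+ ℤ)) =
      (Int.castAddHom ℂ).comp (heckeOp M hℓ v : Additive (Gamma0 M) →+ ℤ) :=
  heckeHom_comp (R := ℤ) hℓ (Int.castAddHom ℂ) (v : Additive (Gamma0 M) →+ ℤ)

theorem exists_shadow_of_mem (t : Module.End ℂ (CuspForm (Gamma0 M) 2))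
    (ht : t ∈ CuspForm.heckeAlgebra M 2 ∅) : ∃ τ ∈ opAlg M, Shadow M t τ := by
  induction ht using Algebra.adjoin_induction with
  | mem T hT =>
    rcases hT with ⟨ℓ, hℓ, hℓN, -, rfl⟩ | ⟨q, hqN, hq, -, rfl⟩
    · refine ⟨heckeOp M hℓ, heckeOp_mem M hℓ, fun x v hxv => ?_⟩
      rw [← heckeHom_periodHomPair_T hℓ hℓN x.1 x.2, Prod.mk.eta, hxv, intCast_comp_heckeOp]
    · refine ⟨heckeOp M hq, heckeOp_mem M hq, fun x v hxv => ?_⟩
      rw [← heckeHom_periodHomPair_U hq hqN x.1 x.2, Prod.mk.eta, hxv, intCast_comp_heckeOp]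
  | algebraMap r =>
    refine ⟨algebraMap ℤ _ r, Subalgebra.algebraMap_mem _ r, fun x v hxv => ?_⟩
    simp only [Module.algebraMap_end_apply]
    rw [← Prod.smul_mk, Prod.mk.eta, map_zsmul, hxv]
    ext g
    simp
  | add a b _ _ ha hb =>
    obtain ⟨τ, hτ, h⟩ := ha
    obtain ⟨σ, hσ, h'⟩ := hb
    refine ⟨τ + σ, add_mem hτ hσ, fun x v hxv => ?_⟩
    simp only [LinearMap.add_apply]
    rw [← Prod.mk_add_mk, map_add, h x v hxv, h' x v hxv]
    ext g
    simp
  | mul a b _ _ ha hb =>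
    obtain ⟨τ, hτ, h⟩ := ha
    obtain ⟨σ, hσ, h'⟩ := hb
    exact ⟨τ * σ, mul_mem hτ hσ, fun x v hxv => h (b x.1, b x.2) (σ v) (h' x v hxv)⟩

/-- The endomorphism of integral cohomology attached to an element of the Hecke algebra. -/
def shadowOf (t : CuspForm.heckeAlgebra M 2 ∅) : Module.End ℤ Vℤ :=
  (exists_shadow_of_mem t.1 t.2).choose

theorem shadowOf_mem (t : CuspForm.heckeAlgebra M 2 ∅) : shadowOf t ∈ opAlg M :=
  (exists_shadow_of_mem t.1 t.2).choose_spec.1

theorem shadow_shadowOf (t : CuspForm.heckeAlgebra M 2 ∅) : Shadow M t.1 (shadowOf t) :=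
  (exists_shadow_of_mem t.1 t.2).choose_spec.2

variable (M) in
/-- The Hecke algebra of cusp forms acting on integral cuspidal cohomology. -/
def toOpAlg : CuspForm.heckeAlgebra M 2 ∅ →+* opAlg M where
  toFun t := ⟨shadowOf t, shadowOf_mem t⟩
  map_one' := Subtype.ext ((shadow_shadowOf _).unique fun _ _ h => h)
  map_mul' a b := Subtype.ext ((shadow_shadowOf (a * b)).unique
    fun x v hxv => shadow_shadowOf a _ _ (shadow_shadowOf b x v hxv))
  map_zero' := Subtype.ext ((shadow_shadowOf _).unique fun x v _ => by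
    show periodHomPair M 0 = _
    rw [map_zero]; ext g; simp)
  map_add' a b := Subtype.ext ((shadow_shadowOf (a + b)).unique fun x v hxv => by
    show periodHomPair M ((a.1 x.1, a.1 x.2) + (b.1 x.1, b.1 x.2)) = _
    rw [map_add, shadow_shadowOf a x v hxv, shadow_shadowOf b x v hxv]
    ext g; simp)

theorem shadowOf_T {ℓ : ℕ} (hℓ : ℓ.Prime) (hℓN : ¬ ℓ ∣ M) :
    (toOpAlg M (CuspForm.heckeAlgebra.T hℓ hℓN (Set.notMem_empty ℓ)) : Module.End ℤ Vℤ) =
      heckeOp M hℓ :=
  (shadow_shadowOf _).unique fun x v hxv => by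
    rw [CuspForm.heckeAlgebra.coe_T, ← heckeHom_periodHomPair_T hℓ hℓN x.1 x.2, Prod.mk.eta, hxv,
      intCast_comp_heckeOp]

theorem shadowOf_U {q : ℕ} (hq : q.Prime) (hqN : q ∣ M) :
    (toOpAlg M (CuspForm.heckeAlgebra.U hq hqN (Set.notMem_empty q)) : Module.End ℤ Vℤ) =
      heckeOp M hq :=
  (shadow_shadowOf _).unique fun x v hxv => by
    rw [CuspForm.heckeAlgebra.coe_U, ← heckeHom_periodHomPair_U hq hqN x.1 x.2, Prod.mk.eta, hxv,
      intCast_comp_heckeOp]

theorem coe_toOpAlg (t : CuspForm.heckeAlgebra M 2 ∅) :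
    (toOpAlg M t : Module.End ℤ Vℤ) = shadowOf t := rfl

/-- The endomorphism of cusp forms is determined by its action on integral cohomology. -/
theorem toOpAlg_injective : Function.Injective (toOpAlg M) := by
  rw [injective_iff_map_eq_zero]
  intro t ht
  have hv : ∀ φ ∈ parabolicHoms ℂ (Gamma0 M) ℂ, ∀ x, periodHomPair M x = φ →
      periodHomPair M (t.1 x.1, t.1 x.2) = 0 := by
    intro φ hφ
    rw [← span_int_parabolicHoms M] at hφ
    induction hφ using Submodule.span_induction with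
    | mem φ hφ =>
      obtain ⟨ψ, hψ, rfl⟩ := hφ
      intro x hx
      have hψ' : ψ ∈ cuspidalHoms ℤ (Gamma0 M) ℤ := by
        rw [← parabolicHoms_eq_cuspidalHoms M ℤ ℤ]; exact hψ
      have h := shadow_shadowOf t x ⟨ψ, hψ'⟩ hx
      rw [← coe_toOpAlg, ht] at h
      rw [h]
      ext g
      simp
    | zero =>
      intro x hx
      obtain rfl : x = 0 := periodHomPair_injective M (hx.trans (map_zero _).symm)
      show periodHomPair M (t.1 0, t.1 0) = 0
      rw [map_zero]; exact map_zero _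
    | add a b ha hb iha ihb =>
      intro x hx
      obtain ⟨y, hy⟩ : a ∈ LinearMap.range (periodHomPair M) := by
        rw [range_periodHomPair M, ← span_int_parabolicHoms M]; exact ha
      obtain ⟨z, hz⟩ : b ∈ LinearMap.range (periodHomPair M) := by
        rw [range_periodHomPair M, ← span_int_parabolicHoms M]; exact hb
      obtain rfl : x = y + z := periodHomPair_injective M (by rw [map_add, hy, hz, hx])
      rw [Prod.fst_add, Prod.snd_add, map_add, map_add, ← Prod.mk_add_mk, map_add, iha y hy,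
        ihb z hz, add_zero]
    | smul c a ha iha =>
      intro x hx
      obtain ⟨y, hy⟩ : a ∈ LinearMap.range (periodHomPair M) := by
        rw [range_periodHomPair M, ← span_int_parabolicHoms M]; exact ha
      obtain rfl : x = c • y := periodHomPair_injective M (by rw [map_smul, hy, hx])
      rw [Prod.smul_fst, Prod.smul_snd, map_smul, map_smul, ← Prod.smul_mk, map_smul, iha y hy,
        smul_zero]
  refine Subtype.ext (LinearMap.ext fun f => ?_)
  have hmem : periodHomPair M (f, 0) ∈ parabolicHoms ℂ (Gamma0 M) ℂ := by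
    rw [← range_periodHomPair M]; exact LinearMap.mem_range_self _ _
  have h := periodHomPair_injective M
    ((hv _ hmem (f, 0) rfl).trans (map_zero (periodHomPair M)).symm)
  exact (Prod.ext_iff.mp h).1

/-- An integral class vanishing modulo `p` is `p` times a cuspidal class. -/
theorem exists_eq_smul_of_cast_eq_zero {p : ℕ} [NeZero p] (v : Vℤ)
    (h : (Int.castAddHom (ZMod p)).comp (v : Additive (Gamma0 M) →+ ℤ) = 0) :
    ∃ w : Vℤ, v = (p : ℤ) • w := by
  have hdvd : ∀ g, (p : ℤ) ∣ (v : Additive (Gamma0 M) →+ ℤ) g := fun g =>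
    (ZMod.intCast_zmod_eq_zero_iff_dvd _ p).mp (DFunLike.congr_fun h g)
  let w : Additive (Gamma0 M) →+ ℤ :=
    AddMonoidHom.mk' (fun g => (v : Additive (Gamma0 M) →+ ℤ) g / (p : ℤ)) fun a b => by
      rw [map_add, Int.add_ediv_of_dvd_left (hdvd a)]
  refine ⟨⟨w, fun γ hγ => ?_⟩, Subtype.ext (AddMonoidHom.ext fun g => ?_)⟩
  · show (v : Additive (Gamma0 M) →+ ℤ) _ / (p : ℤ) = 0
    rw [v.2 γ hγ, Int.zero_ediv]
  · exact (Int.mul_ediv_cancel' (hdvd g)).symm

theorem intCast_comp_heckeOp_zmod {p ℓ : ℕ} (hℓ : ℓ.Prime) (v : Vℤ) :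
    heckeHom ℤ (ZMod p) hℓ ((Int.castAddHom (ZMod p)).comp (v : Additive (Gamma0 M) →+ ℤ)) =
      (Int.castAddHom (ZMod p)).comp (heckeOp M hℓ v : Additive (Gamma0 M) →+ ℤ) :=
  heckeHom_comp (R := ℤ) hℓ (Int.castAddHom (ZMod p)) (v : Additive (Gamma0 M) →+ ℤ)

end Fermat.Agent.LevelRaise
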